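import Mathlib
import Fermat.Prelude.Def_FLTPrelim_FreyPackage
import Fermat.Agent.S02

set_option autoImplicit false

namespace Fermat.Agent.S01

/-- Reduction of Fermat's Last Theorem to the non-existence of Frey packages:
uses the exponent-3 and exponent-4 cases from Mathlib and the Frey package
construction `Fermat.Agent.S02.result` for prime exponents `p ≥ 5`. -/
theorem flt_of_no_freyPackage (h : FreyPackage → False) : FermatLastTheorem := by
  apply FermatLastTheorem.of_odd_primes
  intro p pp hodd
  by_cases h3 : p = 3
  · subst h3; exact fermatLastTheoremThree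
  have hp2 : p ≠ 2 := by
    rintro rfl
    exact absurd hodd (by decide)
  have hp4 : p ≠ 4 := by
    rintro rfl
    exact absurd pp (by decide)
  have hp5 : 5 ≤ p := by
    have := pp.two_le
    omega
  rw [fermatLastTheoremFor_iff_int]
  intro a b c ha hb hc H
  obtain ⟨P⟩ := Fermat.Agent.S02.result a b c ha hb hc p pp hp5 H
  exact h P

/-- The elementary form of the statement, from the non-existence of Frey packages. -/
theorem elementary_of_no_freyPackage (h : FreyPackage → False)
    (n : ℕ) (hn : 3 ≤ n) (a b c : ℕ) (ha : 0 < a) (hb : 0 < b) (hc : 0 < c) :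
    a ^ n + b ^ n ≠ c ^ n :=
  flt_of_no_freyPackage h n hn a b c ha.ne' hb.ne' hc.ne'

end Fermat.Agent.S01
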